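import Mathlib
import Fermat.Prelude.Def_GroupCohomology_ContinuousUnramified
import Fermat.Agent.MUL.Orig.S14.FinalA

/-!
# F4 / SM : level structures and level-constant (smooth) cochains in low degree

A *level structure* on a group `G` is a directed, nonempty family of normal subgroups of finite
index (think: the open normal subgroups of a profinite quotient of `G`).  A cochain is
*level-constant* if it is right-invariant in every variable under some member of the family.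
For `G = Gal(Qbar/Q)` and the family of fixing subgroups of finite Galois extensions unramified
outside `S` this is exactly the Prelude's `IsLevelConstantS₁/₂` (see `F4/SM/Bridge.lean`).

Everything is in the explicit low-degree style of `Mathlib...GroupCohomology.LowDegree`
(`G → A`, `G × G → A`, `G × G × G → A`) so that it matches the Prelude definitionally.
-/

set_option autoImplicit false

open CategoryTheory groupCohomology

namespace Fermat.Agent.F4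

/-- A level structure on `G`: a nonempty directed family of normal subgroups of finite index. -/
structure Levels (G : Type) [Group G] where
  sets : Set (Subgroup G)
  nonempty : sets.Nonempty
  normal : ∀ U ∈ sets, U.Normal
  finiteIndex : ∀ U ∈ sets, U.FiniteIndex
  directed : ∀ U ∈ sets, ∀ V ∈ sets, ∃ W ∈ sets, W ≤ U ⊓ V

namespace Levels

variable {G : Type} [Group G] (𝓤 : Levels G)

/-- Pull back a level structure along a group homomorphism `r : H →* G`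
(the family `r⁻¹(U)`, `U ∈ 𝓤`). -/
def comap {H : Type} [Group H] (r : H →* G) : Levels H where
  sets := {V | ∃ U ∈ 𝓤.sets, V = U.comap r}
  nonempty := by
    obtain ⟨U, hU⟩ := 𝓤.nonempty
    exact ⟨U.comap r, U, hU, rfl⟩
  normal := by
    rintro _ ⟨U, hU, rfl⟩
    have := 𝓤.normal U hU
    infer_instance
  finiteIndex := by
    rintro _ ⟨U, hU, rfl⟩
    have hfi := 𝓤.finiteIndex U hU
    refine ⟨?_⟩
    rw [Subgroup.index_comap]
    have : (U.subgroupOf r.range).FiniteIndex := inferInstance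
    exact this.index_ne_zero
  directed := by
    rintro _ ⟨U, hU, rfl⟩ _ ⟨V, hV, rfl⟩
    obtain ⟨W, hW, hWle⟩ := 𝓤.directed U hU V hV
    refine ⟨W.comap r, ⟨W, hW, rfl⟩, ?_⟩
    rw [← Subgroup.comap_inf]
    exact Subgroup.comap_mono hWle

/-- The members of `𝓤` contained in a given member `U₀` (levels of the "open subgroup" `U₀`
are handled by restricting cochains; this is the cofinal subfamily below `U₀`). -/
def below (U₀ : Subgroup G) (h₀ : U₀ ∈ 𝓤.sets) : Levels G where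
  sets := {U | U ∈ 𝓤.sets ∧ U ≤ U₀}
  nonempty := ⟨U₀, h₀, le_rfl⟩
  normal := fun U hU => 𝓤.normal U hU.1
  finiteIndex := fun U hU => 𝓤.finiteIndex U hU.1
  directed := by
    rintro U ⟨hU, hU0⟩ V ⟨hV, _⟩
    obtain ⟨W, hW, hWle⟩ := 𝓤.directed U hU V hV
    exact ⟨W, ⟨hW, (hWle.trans inf_le_left).trans hU0⟩, hWle⟩

end Levels

section LevelConstant

variable {G : Type} [Group G] (𝓤 : Levels G)

/-- Level-constant 1-cochains. -/
def IsLC₁ {X : Type*} (f : G → X) : Prop :=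
  ∃ U ∈ 𝓤.sets, ∀ g s, s ∈ U → f (g * s) = f g

/-- Level-constant 2-cochains. -/
def IsLC₂ {X : Type*} (f : G × G → X) : Prop :=
  ∃ U ∈ 𝓤.sets, ∀ g g' s s', s ∈ U → s' ∈ U → f (g * s, g' * s') = f (g, g')

/-- Level-constant 3-cochains. -/
def IsLC₃ {X : Type*} (f : G × G × G → X) : Prop :=
  ∃ U ∈ 𝓤.sets, ∀ g g' g'' s s' s'', s ∈ U → s' ∈ U → s'' ∈ U →
    f (g * s, g' * s', g'' * s'') = f (g, g', g'')

variable {𝓤}

lemma IsLC₁.add {X : Type*} [Add X] {f f' : G → X} (hf : IsLC₁ 𝓤 f) (hf' : IsLC₁ 𝓤 f') :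
    IsLC₁ 𝓤 (f + f') := by
  obtain ⟨U, hU, h⟩ := hf
  obtain ⟨V, hV, h'⟩ := hf'
  obtain ⟨W, hW, hWle⟩ := 𝓤.directed U hU V hV
  refine ⟨W, hW, fun g s hs => ?_⟩
  simp only [Pi.add_apply]
  rw [h g s (hWle hs).1, h' g s (hWle hs).2]

lemma IsLC₂.add {X : Type*} [Add X] {f f' : G × G → X} (hf : IsLC₂ 𝓤 f) (hf' : IsLC₂ 𝓤 f') :
    IsLC₂ 𝓤 (f + f') := by
  obtain ⟨U, hU, h⟩ := hf
  obtain ⟨V, hV, h'⟩ := hf'
  obtain ⟨W, hW, hWle⟩ := 𝓤.directed U hU V hV
  refine ⟨W, hW, fun g g' s s' hs hs' => ?_⟩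
  simp only [Pi.add_apply]
  rw [h g g' s s' (hWle hs).1 (hWle hs').1, h' g g' s s' (hWle hs).2 (hWle hs').2]

lemma IsLC₃.add {X : Type*} [Add X] {f f' : G × G × G → X} (hf : IsLC₃ 𝓤 f)
    (hf' : IsLC₃ 𝓤 f') : IsLC₃ 𝓤 (f + f') := by
  obtain ⟨U, hU, h⟩ := hf
  obtain ⟨V, hV, h'⟩ := hf'
  obtain ⟨W, hW, hWle⟩ := 𝓤.directed U hU V hV
  refine ⟨W, hW, fun g g' g'' s s' s'' hs hs' hs'' => ?_⟩
  simp only [Pi.add_apply]
  rw [h g g' g'' s s' s'' (hWle hs).1 (hWle hs').1 (hWle hs'').1,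
    h' g g' g'' s s' s'' (hWle hs).2 (hWle hs').2 (hWle hs'').2]

variable (𝓤)

lemma isLC₁_const {X : Type*} (x : X) : IsLC₁ 𝓤 (fun _ : G => x) := by
  obtain ⟨U, hU⟩ := 𝓤.nonempty
  exact ⟨U, hU, fun _ _ _ => rfl⟩

lemma isLC₂_const {X : Type*} (x : X) : IsLC₂ 𝓤 (fun _ : G × G => x) := by
  obtain ⟨U, hU⟩ := 𝓤.nonempty
  exact ⟨U, hU, fun _ _ _ _ _ _ => rfl⟩

lemma isLC₃_const {X : Type*} (x : X) : IsLC₃ 𝓤 (fun _ : G × G × G => x) := by
  obtain ⟨U, hU⟩ := 𝓤.nonempty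
  exact ⟨U, hU, fun _ _ _ _ _ _ _ _ _ => rfl⟩

variable {𝓤}

lemma IsLC₁.comp {X Y : Type*} {f : G → X} (hf : IsLC₁ 𝓤 f) (φ : X → Y) : IsLC₁ 𝓤 (φ ∘ f) := by
  obtain ⟨U, hU, h⟩ := hf
  exact ⟨U, hU, fun g s hs => by simp only [Function.comp_apply, h g s hs]⟩

lemma IsLC₂.comp {X Y : Type*} {f : G × G → X} (hf : IsLC₂ 𝓤 f) (φ : X → Y) :
    IsLC₂ 𝓤 (φ ∘ f) := by
  obtain ⟨U, hU, h⟩ := hf
  exact ⟨U, hU, fun g g' s s' hs hs' => by simp only [Function.comp_apply, h g g' s s' hs hs']⟩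

lemma IsLC₃.comp {X Y : Type*} {f : G × G × G → X} (hf : IsLC₃ 𝓤 f) (φ : X → Y) :
    IsLC₃ 𝓤 (φ ∘ f) := by
  obtain ⟨U, hU, h⟩ := hf
  exact ⟨U, hU, fun g g' g'' s s' s'' hs hs' hs'' => by
    simp only [Function.comp_apply, h g g' g'' s s' s'' hs hs' hs'']⟩

end LevelConstant

section Modules

variable {k G : Type} [CommRing k] [Group G] (𝓤 : Levels G) (A : Rep.{0} k G)

/-- `A` is `𝓤`-smooth: every element is fixed by some member of `𝓤`. -/
def IsSmooth : Prop := ∀ a : A, ∃ U ∈ 𝓤.sets, ∀ g ∈ U, A.ρ g a = a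

/-- Level-constant 1-cochains as a submodule. -/
def lc₁ : Submodule k (G → A) where
  carrier := {f | IsLC₁ 𝓤 f}
  add_mem' hf hf' := hf.add hf'
  zero_mem' := isLC₁_const 𝓤 (0 : A)
  smul_mem' c _ hf := hf.comp (c • ·)

/-- Level-constant 2-cochains as a submodule. -/
def lc₂ : Submodule k (G × G → A) where
  carrier := {f | IsLC₂ 𝓤 f}
  add_mem' hf hf' := hf.add hf'
  zero_mem' := isLC₂_const 𝓤 (0 : A)
  smul_mem' c _ hf := hf.comp (c • ·)

/-- Level-constant 3-cochains as a submodule. -/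
def lc₃ : Submodule k (G × G × G → A) where
  carrier := {f | IsLC₃ 𝓤 f}
  add_mem' hf hf' := hf.add hf'
  zero_mem' := isLC₃_const 𝓤 (0 : A)
  smul_mem' c _ hf := hf.comp (c • ·)

@[simp] lemma mem_lc₁_iff (f : G → A) : f ∈ lc₁ 𝓤 A ↔ IsLC₁ 𝓤 f := Iff.rfl
@[simp] lemma mem_lc₂_iff (f : G × G → A) : f ∈ lc₂ 𝓤 A ↔ IsLC₂ 𝓤 f := Iff.rfl
@[simp] lemma mem_lc₃_iff (f : G × G × G → A) : f ∈ lc₃ 𝓤 A ↔ IsLC₃ 𝓤 f := Iff.rfl

/-- Smooth 1-cocycles. -/
def Z1 : Submodule k (G → A) := cocycles₁ A ⊓ lc₁ 𝓤 A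

/-- 1-coboundaries (all of them; they are level-constant when `A` is smooth). -/
def B1 : Submodule k (G → A) := LinearMap.range (d₀₁ A).hom

/-- Smooth `H¹` (explicit model). -/
abbrev H1sm : Type := ↥(Z1 𝓤 A) ⧸ (B1 A).comap (Z1 𝓤 A).subtype

/-- Smooth 2-cocycles. -/
def Z2 : Submodule k (G × G → A) := cocycles₂ A ⊓ lc₂ 𝓤 A

/-- Smooth 2-coboundaries: `d` of level-constant 1-cochains. -/
def B2 : Submodule k (G × G → A) := (lc₁ 𝓤 A).map (d₁₂ A).hom

/-- Smooth `H²` (explicit model; for `𝓤 = levelsS S` this is the Prelude's `continuousH2S`). -/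
abbrev H2sm : Type := ↥(Z2 𝓤 A) ⧸ (B2 𝓤 A).comap (Z2 𝓤 A).subtype

/-- The class map `Z² → H²`. -/
abbrev H2smπ : ↥(Z2 𝓤 A) →ₗ[k] H2sm 𝓤 A := Submodule.mkQ _

/-- The class map `Z¹ → H¹`. -/
abbrev H1smπ : ↥(Z1 𝓤 A) →ₗ[k] H1sm 𝓤 A := Submodule.mkQ _

end Modules

end Fermat.Agent.F4
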